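/-
Programme I (S33, p-new half), node T4 (frame + inertia), B-side, part 1 (helper5):
the node algebra is DENSE in its two boundary rings.

`K` a complete ultrametric normed field, `0 < ‖π‖ < 1`, `NodeB π` helper10's node algebra
(`W[[X,Y]]/(XY - π)[1/ϖ]`), `toX, toY : NodeB π →ₐ[K] BAmice K` its two boundary expansions.

* `denseRange_toX`, `denseRange_toY` : the expansions have dense range for the Gauss norm
  (truncate the negative part: `X` is a unit of the node algebra);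
* `extendX φ hφ : BAmice K →+* BAmice K` : a ring endomorphism `φ` of the node algebra which does
  not increase the Gauss norm of the `X`-expansion extends uniquely to the boundary ring
  (`extendX_toX`, `norm_extendX_le`, `extendX_unique`); `extendY` the twin.
These are the maps `σB1`, `σB2` of lead's `Glue.NodeHom` for the boundary rings `B1 = B2 = BAmice K`.
-/
import Mathlib
import Fermat.Agent.FF3.NodeRing.Basic

set_option autoImplicit false
set_option linter.unusedSectionVars false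

noncomputable section

namespace Fermat.Agent.FF3.NodeBdry

open Filter Topology Fermat.Agent.FF3.Amice Fermat.Agent.FF3.NodeRing

variable {K : Type*} [NormedField K] [IsUltrametricDist K] [CompleteSpace K] {π : K}

/-- the truncation of a bounded series below `-N` -/
def truncBelow (N : ℕ) (e : BAmice K) : BAmice K :=
  BAmice.mk (fun n => if -(N : ℤ) ≤ n then BAmice.coeff n e else 0)
    ⟨‖e‖, by
      rintro _ ⟨n, rfl⟩
      show ‖(if -(N : ℤ) ≤ n then BAmice.coeff n e else 0)‖ ≤ ‖e‖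
      split_ifs
      · exact BAmice.norm_coeff_le n e
      · rw [norm_zero]; exact norm_nonneg _⟩
    (by
      refine tendsto_const_nhds.congr' ?_
      filter_upwards [eventually_lt_atBot (-(N : ℤ))] with n hn
      rw [if_neg (by omega)])

theorem coeff_truncBelow (N : ℕ) (e : BAmice K) (n : ℤ) :
    BAmice.coeff n (truncBelow N e) = if -(N : ℤ) ≤ n then BAmice.coeff n e else 0 := rfl

/-- the truncations are expansions of elements of the node algebra -/
theorem truncBelow_mem_range_toX (hπ : π ≠ 0) (hπ1 : ‖π‖ < 1) (N : ℕ) (e : BAmice K) :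
    truncBelow N e ∈ Set.range (toX : NodeB π → BAmice K) := by
  have hπpos : 0 < ‖π‖ := norm_pos_iff.mpr hπ
  rw [mem_range_toX_iff hπ hπ1]
  refine ⟨‖e‖ * (‖π‖ ^ N)⁻¹, fun n => ?_⟩
  rw [coeff_truncBelow]
  split_ifs with h
  · have h1 : ‖π‖ ^ N ≤ ‖π‖ ^ (-n) := by
      rw [← zpow_natCast]
      exact zpow_le_zpow_right_of_le_one₀ hπpos hπ1.le (by omega)
    calc ‖BAmice.coeff n e‖ ≤ ‖e‖ := BAmice.norm_coeff_le n e
      _ = ‖e‖ * (‖π‖ ^ N)⁻¹ * ‖π‖ ^ N := by
          rw [mul_assoc, inv_mul_cancel₀ (pow_ne_zero _ hπpos.ne'), mul_one]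
      _ ≤ ‖e‖ * (‖π‖ ^ N)⁻¹ * ‖π‖ ^ (-n) :=
          mul_le_mul_of_nonneg_left h1
            (mul_nonneg (norm_nonneg _) (inv_nonneg.mpr (pow_nonneg hπpos.le _)))
  · rw [norm_zero]
    exact mul_nonneg (mul_nonneg (norm_nonneg _) (inv_nonneg.mpr (pow_nonneg hπpos.le _)))
      (zpow_nonneg hπpos.le _)

/-- the truncations approximate the series -/
theorem exists_norm_sub_truncBelow_le (e : BAmice K) {ε : ℝ} (hε : 0 < ε) :
    ∃ N : ℕ, ‖e - truncBelow N e‖ ≤ ε := by
  have h := BAmice.tendsto_coeff_atBot e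
  rw [Metric.tendsto_nhds] at h
  obtain ⟨M, hM⟩ := Filter.eventually_atBot.mp (h ε hε)
  refine ⟨(-M + 1).toNat, ?_⟩
  rw [BAmice.norm_le_iff]
  intro n
  rw [BAmice.coeff_sub, coeff_truncBelow]
  split_ifs with hn
  · rw [sub_self, norm_zero]
    exact hε.le
  · rw [sub_zero]
    have hnM : n ≤ M := by
      have := Int.self_le_toNat (-M + 1)
      omega
    have := hM n hnM
    rw [dist_zero_right] at this
    exact this.le

/-- **the `X`-expansion of the node algebra has dense range** -/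
theorem denseRange_toX (hπ : π ≠ 0) (hπ1 : ‖π‖ < 1) :
    DenseRange (toX : NodeB π → BAmice K) := by
  intro e
  rw [Metric.mem_closure_iff]
  intro ε hε
  obtain ⟨N, hN⟩ := exists_norm_sub_truncBelow_le e (half_pos hε)
  refine ⟨truncBelow N e, truncBelow_mem_range_toX hπ hπ1 N e, ?_⟩
  rw [dist_eq_norm]
  exact lt_of_le_of_lt hN (half_lt_self hε)

/-- **the `Y`-expansion of the node algebra has dense range** -/
theorem denseRange_toY (hπ : π ≠ 0) (hπ1 : ‖π‖ < 1) :
    DenseRange (toY : NodeB π → BAmice K) := by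
  intro e
  have h := denseRange_toX (π := π) hπ hπ1 e
  have e1 : Set.range (toX : NodeB π → BAmice K) ⊆ Set.range (toY : NodeB π → BAmice K) := by
    rintro _ ⟨g, rfl⟩
    exact ⟨swap π g, toY_swap g⟩
  exact closure_mono e1 h

/-! ### extension of endomorphisms to the boundary rings -/

section extend

variable (a : NodeB π →+* BAmice K) (ha : Function.Injective a) (hd : DenseRange a)
  (φ : NodeB π →+* NodeB π) (hφ : ∀ z, ‖a (φ z)‖ ≤ ‖a z‖)

/-- the endomorphism of the range of an expansion induced by `φ` -/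
def rangeHom : a.range →+* BAmice K :=
  (a.comp φ).comp (RingEquiv.ofBijective a.rangeRestrict
    ⟨fun _ _ h => ha (congrArg Subtype.val h), a.rangeRestrict_surjective⟩).symm.toRingHom

theorem rangeHom_apply (z : NodeB π) : rangeHom a ha φ ⟨a z, ⟨z, rfl⟩⟩ = a (φ z) := by
  unfold rangeHom
  have : (RingEquiv.ofBijective a.rangeRestrict
      ⟨fun _ _ h => ha (congrArg Subtype.val h), a.rangeRestrict_surjective⟩).symm
        ⟨a z, ⟨z, rfl⟩⟩ = z := by
    rw [RingEquiv.symm_apply_eq]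
    rfl
  simp only [RingHom.comp_apply, RingEquiv.toRingHom_eq_coe, RingHom.coe_coe, this]

include hφ in
theorem norm_rangeHom_le (x : a.range) : ‖rangeHom a ha φ x‖ ≤ ‖x‖ := by
  obtain ⟨_, ⟨z, rfl⟩⟩ := x
  rw [rangeHom_apply]
  exact hφ z

include hφ in
theorem uniformContinuous_rangeHom : UniformContinuous (rangeHom a ha φ) :=
  AddMonoidHomClass.uniformContinuous_of_bound (rangeHom a ha φ) 1 fun x => by
    rw [one_mul]
    exact norm_rangeHom_le a ha φ hφ x

include hd in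
theorem denseRange_subtype : DenseRange (a.range.subtype) := by
  intro e
  have h := hd e
  have e1 : Set.range a ⊆ Set.range a.range.subtype := by
    rintro _ ⟨z, rfl⟩
    exact ⟨⟨a z, ⟨z, rfl⟩⟩, rfl⟩
  exact closure_mono e1 h

theorem isUniformInducing_subtype : IsUniformInducing (a.range.subtype) :=
  isUniformEmbedding_subtype_val.isUniformInducing

/-- **the extension of an endomorphism of the node algebra to a boundary ring** -/
def extendHom : BAmice K →+* BAmice K :=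
  IsDenseInducing.extendRingHom (i := a.range.subtype) (f := rangeHom a ha φ)
    (isUniformInducing_subtype a) (denseRange_subtype a hd)
    (uniformContinuous_rangeHom a ha φ hφ)

theorem extendHom_apply (z : NodeB π) : extendHom a ha hd φ hφ (a z) = a (φ z) := by
  have h := IsDenseInducing.extend_eq
    ((isUniformInducing_subtype a).isDenseInducing (denseRange_subtype a hd))
    (uniformContinuous_rangeHom a ha φ hφ).continuous (⟨a z, ⟨z, rfl⟩⟩ : a.range)
  rw [rangeHom_apply] at h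
  exact h

theorem continuous_extendHom : Continuous (extendHom a ha hd φ hφ) :=
  (uniformContinuous_uniformly_extend (isUniformInducing_subtype a)
    (denseRange_subtype a hd) (uniformContinuous_rangeHom a ha φ hφ)).continuous

theorem norm_extendHom_le (e : BAmice K) : ‖extendHom a ha hd φ hφ e‖ ≤ ‖e‖ := by
  refine hd.induction_on (p := fun e => ‖extendHom a ha hd φ hφ e‖ ≤ ‖e‖) e ?_ fun z => ?_
  · exact isClosed_le ((continuous_extendHom a ha hd φ hφ).norm) continuous_norm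
  · rw [extendHom_apply]
    exact hφ z

/-- uniqueness of the extension -/
theorem extendHom_unique (ψ : BAmice K →+* BAmice K) (hψc : Continuous ψ)
    (hψ : ∀ z, ψ (a z) = a (φ z)) : ψ = extendHom a ha hd φ hφ := by
  refine RingHom.ext fun e => ?_
  refine hd.induction_on (p := fun e => ψ e = extendHom a ha hd φ hφ e) e ?_ fun z => ?_
  · exact isClosed_eq hψc (continuous_extendHom a ha hd φ hφ)
  · rw [extendHom_apply, hψ]

end extend

/-- the extension to the `X`-boundary ring -/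
def extendX (hπ : π ≠ 0) (hπ1 : ‖π‖ < 1) (φ : NodeB π →+* NodeB π)
    (hφ : ∀ z, ‖toX (φ z)‖ ≤ ‖toX z‖) : BAmice K →+* BAmice K :=
  extendHom (toX : NodeB π →ₐ[K] BAmice K).toRingHom (toX_injective hπ)
    (denseRange_toX hπ hπ1) φ hφ

theorem extendX_toX (hπ : π ≠ 0) (hπ1 : ‖π‖ < 1) (φ : NodeB π →+* NodeB π)
    (hφ : ∀ z, ‖toX (φ z)‖ ≤ ‖toX z‖) (z : NodeB π) :
    extendX hπ hπ1 φ hφ (toX z) = toX (φ z) :=
  extendHom_apply _ _ _ φ hφ z

theorem norm_extendX_le (hπ : π ≠ 0) (hπ1 : ‖π‖ < 1) (φ : NodeB π →+* NodeB π)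
    (hφ : ∀ z, ‖toX (φ z)‖ ≤ ‖toX z‖) (e : BAmice K) : ‖extendX hπ hπ1 φ hφ e‖ ≤ ‖e‖ :=
  norm_extendHom_le _ _ _ φ hφ e

theorem continuous_extendX (hπ : π ≠ 0) (hπ1 : ‖π‖ < 1) (φ : NodeB π →+* NodeB π)
    (hφ : ∀ z, ‖toX (φ z)‖ ≤ ‖toX z‖) : Continuous (extendX hπ hπ1 φ hφ) :=
  continuous_extendHom _ _ _ φ hφ

theorem extendX_unique (hπ : π ≠ 0) (hπ1 : ‖π‖ < 1) (φ : NodeB π →+* NodeB π)
    (hφ : ∀ z, ‖toX (φ z)‖ ≤ ‖toX z‖) (ψ : BAmice K →+* BAmice K) (hψc : Continuous ψ)
    (hψ : ∀ z, ψ (toX z) = toX (φ z)) : ψ = extendX hπ hπ1 φ hφ :=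
  extendHom_unique _ _ _ φ hφ ψ hψc hψ

/-- the extension to the `Y`-boundary ring -/
def extendY (hπ : π ≠ 0) (hπ1 : ‖π‖ < 1) (φ : NodeB π →+* NodeB π)
    (hφ : ∀ z, ‖toY (φ z)‖ ≤ ‖toY z‖) : BAmice K →+* BAmice K :=
  extendHom (toY : NodeB π →ₐ[K] BAmice K).toRingHom (toY_injective hπ)
    (denseRange_toY hπ hπ1) φ hφ

theorem extendY_toY (hπ : π ≠ 0) (hπ1 : ‖π‖ < 1) (φ : NodeB π →+* NodeB π)
    (hφ : ∀ z, ‖toY (φ z)‖ ≤ ‖toY z‖) (z : NodeB π) :
    extendY hπ hπ1 φ hφ (toY z) = toY (φ z) :=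
  extendHom_apply _ _ _ φ hφ z

theorem norm_extendY_le (hπ : π ≠ 0) (hπ1 : ‖π‖ < 1) (φ : NodeB π →+* NodeB π)
    (hφ : ∀ z, ‖toY (φ z)‖ ≤ ‖toY z‖) (e : BAmice K) : ‖extendY hπ hπ1 φ hφ e‖ ≤ ‖e‖ :=
  norm_extendHom_le _ _ _ φ hφ e

theorem continuous_extendY (hπ : π ≠ 0) (hπ1 : ‖π‖ < 1) (φ : NodeB π →+* NodeB π)
    (hφ : ∀ z, ‖toY (φ z)‖ ≤ ‖toY z‖) : Continuous (extendY hπ hπ1 φ hφ) :=
  continuous_extendHom _ _ _ φ hφ

theorem extendY_unique (hπ : π ≠ 0) (hπ1 : ‖π‖ < 1) (φ : NodeB π →+* NodeB π)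
    (hφ : ∀ z, ‖toY (φ z)‖ ≤ ‖toY z‖) (ψ : BAmice K →+* BAmice K) (hψc : Continuous ψ)
    (hψ : ∀ z, ψ (toY z) = toY (φ z)) : ψ = extendY hπ hπ1 φ hφ :=
  extendHom_unique _ _ _ φ hφ ψ hψc hψ

end Fermat.Agent.FF3.NodeBdry
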