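/-
Programme I (S33, p-new half), node T4 (frame + inertia), B-side, part 2 (helper5):
the node algebra `NodeB π` is the localisation of the integral node ring `NodeInt π` away from a
constant `ϖ` with `0 < ‖ϖ‖ < 1`; hence a ring endomorphism `φ₀` of `NodeInt π` which maps `ϖ` to a
constant unit multiple extends uniquely to `NodeB π` (`extendB`).
-/
import Mathlib
import Fermat.Agent.FF3.NodeRing.Int

set_option autoImplicit false
set_option linter.unusedSectionVars false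

noncomputable section

namespace Fermat.Agent.FF3.NodeBdry

open Filter Topology Fermat.Agent.FF3.Amice Fermat.Agent.FF3.NodeRing

variable {K : Type*} [NormedField K] [IsUltrametricDist K] [CompleteSpace K] {π : K}

theorem algebraMap_nodeInt (g : NodeInt π) : algebraMap (NodeInt π) (NodeB π) g = (g : NodeB π) :=
  rfl

/-- a multiple by a power of `ϖ` is integral -/
theorem exists_pow_smul_mem {ϖ : K} (hϖ1 : ‖ϖ‖ < 1) (z : NodeB π) :
    ∃ k : ℕ, algebraMap K (NodeB π) (ϖ ^ k) * z ∈ nodeInt π := by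
  have h : Tendsto (fun k : ℕ => ‖ϖ‖ ^ k * ‖z‖) atTop (𝓝 (0 * ‖z‖)) :=
    (tendsto_pow_atTop_nhds_zero_of_lt_one (norm_nonneg _) hϖ1).mul_const _
  rw [zero_mul] at h
  obtain ⟨k, hk⟩ := ((tendsto_order.1 h).2 1 one_pos).exists
  refine ⟨k, ?_⟩
  rw [mem_nodeInt]
  calc ‖algebraMap K (NodeB π) (ϖ ^ k) * z‖ ≤ ‖algebraMap K (NodeB π) (ϖ ^ k)‖ * ‖z‖ :=
        norm_mul_le _ _
    _ = ‖ϖ‖ ^ k * ‖z‖ := by rw [norm_algebraMap', norm_pow]
    _ ≤ 1 := hk.le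

/-- **`NodeB π = NodeInt π [1/ϖ]`** -/
theorem isLocalization_away {ϖ : K} (hϖ0 : ϖ ≠ 0) (hϖ1 : ‖ϖ‖ < 1) :
    IsLocalization.Away (cInt ϖ hϖ1.le : NodeInt π) (NodeB π) where
  map_units := by
    rintro ⟨_, ⟨k, rfl⟩⟩
    show IsUnit (algebraMap (NodeInt π) (NodeB π) (cInt ϖ hϖ1.le ^ k))
    rw [map_pow]
    refine IsUnit.pow k ?_
    rw [algebraMap_nodeInt, coe_cInt]
    exact (IsUnit.mk0 ϖ hϖ0).map (algebraMap K (NodeB π))
  surj := by
    intro z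
    obtain ⟨k, hk⟩ := exists_pow_smul_mem hϖ1 z
    refine ⟨(⟨_, hk⟩, ⟨cInt ϖ hϖ1.le ^ k, ⟨k, rfl⟩⟩), ?_⟩
    show z * algebraMap (NodeInt π) (NodeB π) (cInt ϖ hϖ1.le ^ k) = _
    rw [map_pow, algebraMap_nodeInt, coe_cInt, algebraMap_nodeInt, ← map_pow, mul_comm]
  exists_of_eq := by
    intro x y h
    refine ⟨1, ?_⟩
    rw [algebraMap_nodeInt, algebraMap_nodeInt] at h
    rw [Subtype.ext h]

section extendB

variable {ϖ : K} (hϖ0 : ϖ ≠ 0) (hϖ1 : ‖ϖ‖ < 1) (φ₀ : NodeInt π →+* NodeInt π)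
  (hφ₀ : IsUnit ((φ₀ (cInt ϖ hϖ1.le) : NodeInt π) : NodeB π))

/-- **the extension of an endomorphism of the integral node ring to the node algebra** -/
def extendB : NodeB π →+* NodeB π :=
  haveI := isLocalization_away (π := π) hϖ0 hϖ1
  IsLocalization.Away.lift (cInt ϖ hϖ1.le : NodeInt π) (g := (nodeInt π).subtype.comp φ₀) hφ₀

theorem extendB_coe (g : NodeInt π) :
    extendB hϖ0 hϖ1 φ₀ hφ₀ (g : NodeB π) = (φ₀ g : NodeB π) := by
  have := isLocalization_away (π := π) hϖ0 hϖ1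
  exact IsLocalization.Away.lift_eq (cInt ϖ hϖ1.le : NodeInt π)
    (g := (nodeInt π).subtype.comp φ₀) hφ₀ g

/-- the extension is the only ring homomorphism which restricts to `φ₀` -/
theorem extendB_unique (ψ : NodeB π →+* NodeB π)
    (hψ : ∀ g : NodeInt π, ψ (g : NodeB π) = (φ₀ g : NodeB π)) : ψ = extendB hϖ0 hϖ1 φ₀ hφ₀ := by
  have := isLocalization_away (π := π) hϖ0 hϖ1
  refine IsLocalization.ringHom_ext (Submonoid.powers (cInt ϖ hϖ1.le : NodeInt π)) ?_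
  refine RingHom.ext fun g => ?_
  rw [RingHom.comp_apply, RingHom.comp_apply, algebraMap_nodeInt, hψ, extendB_coe]

/-- the extension maps the integral elements to integral elements -/
theorem norm_extendB_le_one {z : NodeB π} (hz : ‖z‖ ≤ 1) : ‖extendB hϖ0 hϖ1 φ₀ hφ₀ z‖ ≤ 1 := by
  have h := extendB_coe hϖ0 hϖ1 φ₀ hφ₀ ⟨z, hz⟩
  rw [h]
  exact (φ₀ ⟨z, hz⟩).2

/-- the extension is semilinear if `φ₀` is -/
theorem extendB_algebraMap (σ : K →+* K) (hσ : ∀ a, ‖σ a‖ = ‖a‖)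
    (hc : ∀ (a : K) (ha : ‖a‖ ≤ 1), φ₀ (cInt a ha) = cInt (σ a) ((hσ a).le.trans ha)) (a : K) :
    extendB hϖ0 hϖ1 φ₀ hφ₀ (algebraMap K (NodeB π) a) = algebraMap K (NodeB π) (σ a) := by
  -- `ϖ ^ k a` is integral for `k` large
  have h : Tendsto (fun k : ℕ => ‖ϖ‖ ^ k * ‖a‖) atTop (𝓝 (0 * ‖a‖)) :=
    (tendsto_pow_atTop_nhds_zero_of_lt_one (norm_nonneg _) hϖ1).mul_const _
  rw [zero_mul] at h
  obtain ⟨k, hk⟩ := ((tendsto_order.1 h).2 1 one_pos).exists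
  have hk' : ‖ϖ ^ k * a‖ ≤ 1 := by rw [norm_mul, norm_pow]; exact hk.le
  have hϖk : ‖ϖ ^ k‖ ≤ 1 := by rw [norm_pow]; exact pow_le_one₀ (norm_nonneg _) hϖ1.le
  have e1 := extendB_coe hϖ0 hϖ1 φ₀ hφ₀ (cInt (ϖ ^ k * a) hk')
  have e2 := extendB_coe hϖ0 hϖ1 φ₀ hφ₀ (cInt (ϖ ^ k) hϖk)
  rw [hc, coe_cInt, coe_cInt] at e1 e2
  rw [map_mul, map_mul, map_mul, map_mul, e2] at e1
  have hu : IsUnit (algebraMap K (NodeB π) (σ (ϖ ^ k))) :=
    (IsUnit.mk0 _ (by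
      intro h0
      have := hσ (ϖ ^ k)
      rw [h0, norm_zero] at this
      exact pow_ne_zero k hϖ0 (norm_eq_zero.mp this.symm))).map (algebraMap K (NodeB π))
  exact hu.mul_left_cancel e1

end extendB

end Fermat.Agent.FF3.NodeBdry
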