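/-
Programme I (S33, p-new half), node T4 (frame + inertia), B-side, part 3 (helper5):
a semilinear endomorphism of the node algebra preserving the integral elements and the two
vertical primes does not increase the Gauss norms of the two boundary expansions.

`K` complete DISCRETELY valued (helper11's `IsDiscreteNorm ϖ`), `σ : K →+* K` isometric,
`φ : NodeB π →+* NodeB π` with `φ (a) = σ a` on the constants, `‖z‖ ≤ 1 → ‖φ z‖ ≤ 1`, and
`‖toX (φ X)‖ = 1` (resp. `‖toY (φ Y)‖ = 1`).  Then `‖toX (φ z)‖ ≤ ‖toX z‖` (resp. `toY`).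
These are the hypotheses of `extendX`, `extendY` (`NodeBdry/Dense`).
-/
import Mathlib
import Fermat.Agent.FF3.NodeBdry.Dense
import Fermat.Agent.FF3.NodeBdry.Loc
import Fermat.Agent.FF3.AmiceU.Disc

set_option autoImplicit false
set_option linter.unusedSectionVars false

noncomputable section

namespace Fermat.Agent.FF3.NodeBdry

open Filter Topology Fermat.Agent.FF3.Amice Fermat.Agent.FF3.NodeRing Fermat.Agent.FF3.AmiceU

variable {K : Type*} [NormedField K] [IsUltrametricDist K] [CompleteSpace K] {π : K}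

theorem norm_algebraMap_mul (a : K) (b : BAmice K) :
    ‖algebraMap K (BAmice K) a * b‖ = ‖a‖ * ‖b‖ := by
  rw [← Algebra.smul_def, norm_smul]

theorem norm_pow_of_discrete' {ϖ : K} (hϖ : IsDiscreteNorm ϖ) (x : BAmice K) (N : ℕ) :
    ‖x ^ N‖ = ‖x‖ ^ N := by
  induction N with
  | zero => rw [pow_zero, pow_zero, norm_one]
  | succ N ih => rw [pow_succ, pow_succ, norm_mul_of_discrete hϖ, ih]

theorem norm_toX_X_le (hπ : π ≠ 0) (hπ1 : ‖π‖ ≤ 1) : ‖toX (X hπ : NodeB π)‖ ≤ 1 :=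
  (norm_toX_le _).trans (norm_X hπ hπ1).le

theorem norm_toY_X_le (hπ : π ≠ 0) : ‖toY (X hπ : NodeB π)‖ ≤ ‖π‖ := by
  rw [toY_X]
  refine (norm_smul_le _ _).trans ?_
  have : ‖((BAmice.X⁻¹ : (BAmice K)ˣ) : BAmice K)‖ ≤ 1 := by
    rw [BAmice.coe_X_inv, BAmice.norm_le_iff]
    intro n
    rw [BAmice.coeff_single]
    split_ifs
    · rw [norm_one]
    · rw [norm_zero]; exact zero_le_one
  calc ‖π‖ * ‖((BAmice.X⁻¹ : (BAmice K)ˣ) : BAmice K)‖ ≤ ‖π‖ * 1 :=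
        mul_le_mul_of_nonneg_left this (norm_nonneg _)
    _ = ‖π‖ := mul_one _

/-- **the Gauss norm of the `X`-expansion is not increased** -/
theorem norm_toX_map_le {ϖ : K} (hϖ : IsDiscreteNorm ϖ) (hπ : π ≠ 0) (hπ1 : ‖π‖ < 1)
    (σ : K →+* K) (hσ : ∀ a, ‖σ a‖ = ‖a‖) (φ : NodeB π →+* NodeB π)
    (hφc : ∀ a, φ (algebraMap K (NodeB π) a) = algebraMap K (NodeB π) (σ a))
    (hφ1 : ∀ z : NodeB π, ‖z‖ ≤ 1 → ‖φ z‖ ≤ 1) (hX : ‖toX (φ (X hπ))‖ = 1) (z : NodeB π) :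
    ‖toX (φ z)‖ ≤ ‖toX z‖ := by
  by_cases hz : toX z = 0
  · have : z = 0 := toX_injective hπ (by rw [hz, map_zero])
    rw [this, map_zero, map_zero]
  obtain ⟨n, hn⟩ := exists_norm_coeff_eq_of_discrete hϖ hz
  set c : K := BAmice.coeff n (toX z) with hc
  have hc0 : c ≠ 0 := by
    intro h0
    rw [h0, norm_zero] at hn
    exact hz (norm_eq_zero.mp hn.symm)
  have hcpos : 0 < ‖c‖ := norm_pos_iff.mpr hc0
  set z' : NodeB π := algebraMap K (NodeB π) c⁻¹ * z with hz'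
  have hz'X : ‖toX z'‖ = 1 := by
    rw [hz', map_mul, AlgHom.commutes, norm_algebraMap_mul, norm_inv, hn,
      inv_mul_cancel₀ (norm_ne_zero_iff.mpr hz)]
  -- a power of `X` makes `z'` integral
  obtain ⟨N, hN⟩ : ∃ N : ℕ, ‖π‖ ^ N * ‖toY z'‖ ≤ 1 := by
    have h : Tendsto (fun k : ℕ => ‖π‖ ^ k * ‖toY z'‖) atTop (𝓝 (0 * ‖toY z'‖)) :=
      (tendsto_pow_atTop_nhds_zero_of_lt_one (norm_nonneg _) hπ1).mul_const _
    rw [zero_mul] at h
    obtain ⟨k, hk⟩ := ((tendsto_order.1 h).2 1 one_pos).exists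
    exact ⟨k, hk.le⟩
  set w : NodeB π := X hπ ^ N * z' with hw
  have hw1 : ‖w‖ ≤ 1 := by
    rw [NodeRing.norm_le_iff]
    constructor
    · rw [hw, map_mul, map_pow]
      calc ‖toX (X hπ) ^ N * toX z'‖ ≤ ‖toX (X hπ) ^ N‖ * ‖toX z'‖ := norm_mul_le _ _
        _ ≤ ‖toX (X hπ : NodeB π)‖ ^ N * ‖toX z'‖ :=
            mul_le_mul_of_nonneg_right (norm_pow_le _ _) (norm_nonneg _)
        _ ≤ 1 ^ N * 1 := by
            rw [hz'X]
            exact mul_le_mul_of_nonneg_right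
              (pow_le_pow_left₀ (norm_nonneg _) (norm_toX_X_le hπ hπ1.le) N) zero_le_one
        _ = 1 := by rw [one_pow, one_mul]
    · rw [hw, map_mul, map_pow]
      calc ‖toY (X hπ) ^ N * toY z'‖ ≤ ‖toY (X hπ) ^ N‖ * ‖toY z'‖ := norm_mul_le _ _
        _ ≤ ‖toY (X hπ : NodeB π)‖ ^ N * ‖toY z'‖ :=
            mul_le_mul_of_nonneg_right (norm_pow_le _ _) (norm_nonneg _)
        _ ≤ ‖π‖ ^ N * ‖toY z'‖ :=
            mul_le_mul_of_nonneg_right
              (pow_le_pow_left₀ (norm_nonneg _) (norm_toY_X_le hπ) N) (norm_nonneg _)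
        _ ≤ 1 := hN
  -- apply `φ`
  have h1 : ‖toX (φ w)‖ ≤ 1 := (norm_toX_le _).trans (hφ1 w hw1)
  rw [hw, map_mul, map_pow, map_mul, map_pow, norm_mul_of_discrete hϖ, norm_pow_of_discrete' hϖ,
    hX, one_pow, one_mul] at h1
  -- undo the normalisation
  have h2 : φ z' = algebraMap K (NodeB π) (σ c⁻¹) * φ z := by rw [hz', map_mul, hφc]
  rw [h2, map_mul, AlgHom.commutes, norm_algebraMap_mul, hσ, norm_inv, hn] at h1
  rwa [inv_mul_le_iff₀ (norm_pos_iff.mpr hz), mul_one] at h1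

/-- **the Gauss norm of the `Y`-expansion is not increased** -/
theorem norm_toY_map_le {ϖ : K} (hϖ : IsDiscreteNorm ϖ) (hπ : π ≠ 0) (hπ1 : ‖π‖ < 1)
    (σ : K →+* K) (hσ : ∀ a, ‖σ a‖ = ‖a‖) (φ : NodeB π →+* NodeB π)
    (hφc : ∀ a, φ (algebraMap K (NodeB π) a) = algebraMap K (NodeB π) (σ a))
    (hφ1 : ∀ z : NodeB π, ‖z‖ ≤ 1 → ‖φ z‖ ≤ 1) (hY : ‖toY (φ (Y hπ))‖ = 1) (z : NodeB π) :
    ‖toY (φ z)‖ ≤ ‖toY z‖ := by
  -- conjugate by the symmetry `X ↔ Y`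
  set φ' : NodeB π →+* NodeB π :=
    ((swap π : NodeB π ≃ₐ[K] NodeB π) : NodeB π →+* NodeB π).comp
      (φ.comp ((swap π : NodeB π ≃ₐ[K] NodeB π) : NodeB π →+* NodeB π)) with hφ'
  have e : ∀ u, φ' u = swap π (φ (swap π u)) := fun u => rfl
  have h := norm_toX_map_le hϖ hπ hπ1 σ hσ φ' (fun a => by
      rw [e, AlgEquiv.commutes, hφc, AlgEquiv.commutes])
    (fun u hu => by
      rw [e, norm_swap]
      exact hφ1 _ (by rwa [norm_swap]))
    (by rw [e, swap_X, toX_swap]; exact hY) (swap π z)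
  rwa [e, swap_swap, toX_swap, toX_swap] at h

end Fermat.Agent.FF3.NodeBdry
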