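/-
Programme I (S33, p-new half), node T4 (frame + inertia), B-side, part 4 (helper5):
the action of a semilinear endomorphism of the integral node ring on the whole gluing diagram
`BAmice K ⟵toX⟵ NodeB π ⟶toY⟶ BAmice K`.

INPUT: `K` complete discretely valued (`IsDiscreteNorm ϖ`), `σ : K →+* K` isometric,
`φ₀ : NodeInt π →+* NodeInt π` with `φ₀ (a) = σ a` on the integral constants,
`‖toX (φ₀ X)‖ = 1`, `‖toY (φ₀ Y)‖ = 1` (`φ₀` preserves each of the two vertical primes; for the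
transfer map of an inertia element this is the Gauss clause of the expansion).
OUTPUT: `sigmaR : NodeB π →+* NodeB π`, `sigmaB1, sigmaB2 : BAmice K →+* BAmice K` with
`sigmaB1 ∘ toX = toX ∘ sigmaR`, `sigmaB2 ∘ toY = toY ∘ sigmaR`, `sigmaR (a) = σ a`, all norm
non-increasing and continuous — the fields `σR, σB1, σB2, hcR, ha1, ha2` of lead's `Glue.NodeHom`
for helper28's node (`R = NodeB π`, `B1 = B2 = BAmice K`, `a1 = toX`, `a2 = toY`); and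
`eq_of_dense`, the density argument for the remaining fields `hb1`, `hb2`.
-/
import Mathlib
import Fermat.Agent.FF3.NodeBdry.NormX

set_option autoImplicit false
set_option linter.unusedSectionVars false

noncomputable section

namespace Fermat.Agent.FF3.NodeBdry

open Filter Topology Fermat.Agent.FF3.Amice Fermat.Agent.FF3.NodeRing Fermat.Agent.FF3.AmiceU

variable {K : Type*} [NormedField K] [IsUltrametricDist K] [CompleteSpace K] {π : K}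

section

variable {ϖ : K} (hϖ : IsDiscreteNorm ϖ) (hπ : π ≠ 0) (hπ1 : ‖π‖ < 1)
  (σ : K →+* K) (hσ : ∀ a, ‖σ a‖ = ‖a‖) (φ₀ : NodeInt π →+* NodeInt π)
  (hc : ∀ (a : K) (ha : ‖a‖ ≤ 1), φ₀ (cInt a ha) = cInt (σ a) ((hσ a).le.trans ha))

include hσ hc in
theorem isUnit_map_unif :
    IsUnit ((φ₀ (cInt ϖ hϖ.2.1.le) : NodeInt π) : NodeB π) := by
  rw [hc, coe_cInt]
  refine (IsUnit.mk0 _ ?_).map (algebraMap K (NodeB π))
  intro h0
  have := hσ ϖ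
  rw [h0, norm_zero] at this
  exact hϖ.1.ne' this.symm

/-- the action on the node algebra -/
def sigmaR : NodeB π →+* NodeB π :=
  extendB (norm_pos_iff.mp hϖ.1) hϖ.2.1 φ₀ (isUnit_map_unif hϖ σ hσ φ₀ hc)

theorem sigmaR_coe (g : NodeInt π) :
    sigmaR hϖ σ hσ φ₀ hc (g : NodeB π) = (φ₀ g : NodeB π) :=
  extendB_coe _ _ φ₀ _ g

theorem sigmaR_algebraMap (a : K) :
    sigmaR hϖ σ hσ φ₀ hc (algebraMap K (NodeB π) a) = algebraMap K (NodeB π) (σ a) :=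
  extendB_algebraMap _ _ φ₀ _ σ hσ hc a

theorem norm_sigmaR_le_one {z : NodeB π} (hz : ‖z‖ ≤ 1) : ‖sigmaR hϖ σ hσ φ₀ hc z‖ ≤ 1 :=
  norm_extendB_le_one _ _ φ₀ _ hz

theorem sigmaR_unique (ψ : NodeB π →+* NodeB π)
    (hψ : ∀ g : NodeInt π, ψ (g : NodeB π) = (φ₀ g : NodeB π)) : ψ = sigmaR hϖ σ hσ φ₀ hc :=
  extendB_unique _ _ φ₀ _ ψ hψ

variable (hX : ‖toX ((φ₀ (XInt hπ hπ1.le) : NodeInt π) : NodeB π)‖ = 1)
  (hY : ‖toY ((φ₀ (YInt hπ hπ1.le) : NodeInt π) : NodeB π)‖ = 1)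

include hX in
theorem norm_toX_sigmaR_le (z : NodeB π) : ‖toX (sigmaR hϖ σ hσ φ₀ hc z)‖ ≤ ‖toX z‖ :=
  norm_toX_map_le hϖ hπ hπ1 σ hσ _ (sigmaR_algebraMap hϖ σ hσ φ₀ hc)
    (fun _ hz => norm_sigmaR_le_one hϖ σ hσ φ₀ hc hz)
    (by
      have h := sigmaR_coe hϖ σ hσ φ₀ hc (XInt hπ hπ1.le)
      rw [coe_XInt] at h
      rw [h]
      exact hX) z

include hY in
theorem norm_toY_sigmaR_le (z : NodeB π) : ‖toY (sigmaR hϖ σ hσ φ₀ hc z)‖ ≤ ‖toY z‖ :=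
  norm_toY_map_le hϖ hπ hπ1 σ hσ _ (sigmaR_algebraMap hϖ σ hσ φ₀ hc)
    (fun _ hz => norm_sigmaR_le_one hϖ σ hσ φ₀ hc hz)
    (by
      have h := sigmaR_coe hϖ σ hσ φ₀ hc (YInt hπ hπ1.le)
      rw [coe_YInt] at h
      rw [h]
      exact hY) z

/-- the action on the first boundary ring -/
def sigmaB1 : BAmice K →+* BAmice K :=
  extendX hπ hπ1 (sigmaR hϖ σ hσ φ₀ hc) (norm_toX_sigmaR_le hϖ hπ hπ1 σ hσ φ₀ hc hX)

/-- the action on the second boundary ring -/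
def sigmaB2 : BAmice K →+* BAmice K :=
  extendY hπ hπ1 (sigmaR hϖ σ hσ φ₀ hc) (norm_toY_sigmaR_le hϖ hπ hπ1 σ hσ φ₀ hc hY)

theorem sigmaB1_toX (z : NodeB π) :
    sigmaB1 hϖ hπ hπ1 σ hσ φ₀ hc hX (toX z) = toX (sigmaR hϖ σ hσ φ₀ hc z) :=
  extendX_toX hπ hπ1 _ _ z

theorem sigmaB2_toY (z : NodeB π) :
    sigmaB2 hϖ hπ hπ1 σ hσ φ₀ hc hY (toY z) = toY (sigmaR hϖ σ hσ φ₀ hc z) :=
  extendY_toY hπ hπ1 _ _ z

theorem norm_sigmaB1_le (e : BAmice K) : ‖sigmaB1 hϖ hπ hπ1 σ hσ φ₀ hc hX e‖ ≤ ‖e‖ :=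
  norm_extendX_le hπ hπ1 _ _ e

theorem norm_sigmaB2_le (e : BAmice K) : ‖sigmaB2 hϖ hπ hπ1 σ hσ φ₀ hc hY e‖ ≤ ‖e‖ :=
  norm_extendY_le hπ hπ1 _ _ e

theorem continuous_sigmaB1 : Continuous (sigmaB1 hϖ hπ hπ1 σ hσ φ₀ hc hX) :=
  continuous_extendX hπ hπ1 _ _

theorem continuous_sigmaB2 : Continuous (sigmaB2 hϖ hπ hπ1 σ hσ φ₀ hc hY) :=
  continuous_extendY hπ hπ1 _ _

theorem sigmaB1_algebraMap (a : K) :
    sigmaB1 hϖ hπ hπ1 σ hσ φ₀ hc hX (algebraMap K (BAmice K) a) =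
      algebraMap K (BAmice K) (σ a) := by
  have h := sigmaB1_toX hϖ hπ hπ1 σ hσ φ₀ hc hX (algebraMap K (NodeB π) a)
  rwa [AlgHom.commutes, sigmaR_algebraMap, AlgHom.commutes] at h

theorem sigmaB2_algebraMap (a : K) :
    sigmaB2 hϖ hπ hπ1 σ hσ φ₀ hc hY (algebraMap K (BAmice K) a) =
      algebraMap K (BAmice K) (σ a) := by
  have h := sigmaB2_toY hϖ hπ hπ1 σ hσ φ₀ hc hY (algebraMap K (NodeB π) a)
  rwa [AlgHom.commutes, sigmaR_algebraMap, AlgHom.commutes] at h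

end

/-- **the density argument for the component maps** (`hb1`, `hb2` of `Glue.NodeHom`): two ring
homomorphisms `Oi → BAmice K` of the form `σB ∘ b` and `b ∘ σO` agree as soon as they agree on a
set `D` which approximates every element for `‖b ·‖` and `‖b (σO ·)‖`. -/
theorem eq_of_dense {Oi : Type*} [CommRing Oi] (b : Oi →+* BAmice K) (σO : Oi →+* Oi)
    (σB : BAmice K →+* BAmice K) (hσB : ∀ e, ‖σB e‖ ≤ ‖e‖) (D : Set Oi)
    (hD : ∀ y ∈ D, σB (b y) = b (σO y))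
    (happrox : ∀ x : Oi, ∀ ε : ℝ, 0 < ε → ∃ y ∈ D, ‖b (x - y)‖ ≤ ε ∧ ‖b (σO (x - y))‖ ≤ ε)
    (x : Oi) : σB (b x) = b (σO x) := by
  rw [← sub_eq_zero, ← norm_le_zero_iff]
  refine le_of_forall_pos_le_add fun ε hε => ?_
  rw [zero_add]
  obtain ⟨y, hy, h1, h2⟩ := happrox x ε hε
  have e : σB (b x) - b (σO x) = σB (b (x - y)) - b (σO (x - y)) := by
    rw [map_sub, map_sub, map_sub, map_sub, hD y hy]
    ring
  rw [e, sub_eq_add_neg]
  refine (IsUltrametricDist.norm_add_le_max _ _).trans (max_le ((hσB _).trans h1) ?_)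
  rw [norm_neg]
  exact h2

end Fermat.Agent.FF3.NodeBdry
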