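/-
Programme I (S33, p-new half), node T4 (frame + inertia), B-side, part 10 (helper5):
THE SQUARE `hcR` OF `Glue.NodeHom` ON THE CONSTANTS `WS B q S` AT THE MODULAR TOWER.

`σW : WS B q S →+* WS B q S` ANY ring endomorphism of the integers of the level inducing `σ`
(`↑(σW c) = σ ↑c`; helper22's `StepB.sigmaWS`), `ι_e = iotaWS` (helper16, `BLift/ModularConst`):

* `modConstHom_iotaWS` : `modConstHom (ι_e c) = ι_e (σW c)`;
* `modSigmaR_iotaWS`   : `modSigmaR (algebraMap K₁ (NodeB π₁) (ι_e c)) = algebraMap … (ι_e (σW c))`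
  (= `hcR` of `StepB.NodeAction` when `rings.cR = algebraMap K₁ (NodeB π₁)`, `φ = ι_e`);
* `modSigmaB1_iotaWS`, `modSigmaB2_iotaWS` : the same on the boundary rings.
-/
import Mathlib
import Fermat.Agent.FF3.BLift.ModularConst
import Fermat.Agent.FF3.InertiaLevels.NodeInstModular

set_option autoImplicit false
set_option linter.unusedSectionVars false
set_option synthInstance.maxHeartbeats 400000
set_option maxHeartbeats 4000000

noncomputable section

namespace Fermat.Agent.FF3.NodeBdry

open AlgebraicCurve ModularCurve IsLocalRing Fermat.Agent.Red Fermat.Agent.X0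
  Fermat.Agent.BR Fermat.Agent.BR.Centre Fermat.Agent.BR.S0 Fermat.Agent.BR.SS
  Fermat.Agent.BR.S0.RedModular
  Fermat.Agent.BR.S0.RedHyp Fermat.Agent.BR.S0.PointDict Fermat.Agent.BR.Inst.AnnulusInstFinal
  Fermat.Agent.BR.Inst.Levels Fermat.Agent.BR.Inst.NodeInst Fermat.Agent.BR.Inst.LocSub
  Fermat.Agent.FF3 Fermat.Agent.FF3.Amice Fermat.Agent.FF3.NodeRing Fermat.Agent.FF3.ExpandBR
  Fermat.Agent.FF3.BLift Fermat.Agent.FF3.InertiaLevels Fermat.Agent.BR.ValTwo

attribute [local instance] normedAlgebraSubfield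

local notation "Kb" => AlgebraicClosure ℚ

variable {M q : ℕ} [NeZero M] [hq : Fact q.Prime]
variable (B : ValuationSubring Kb) (hB : B.LiesOverPrime q) (hqM : ¬ q ∣ M)
variable [IsAlgClosed (ResidueField B)]
variable (hne : Nonempty (Crossing (chartDataModular B hB hqM)))
variable (e : Crossing (chartDataModular B hB hqM))
variable {σ : Kb ≃ₐ[ℚ] Kb}
variable {Ω : Type} [NormedField Ω] [IsUltrametricDist Ω] [CompleteSpace Ω]
  (j : Kb →+* Ω) (hj : ∀ c : Kb, ‖j c‖ ≤ 1 ↔ c ∈ B)
  (σΩ : Ω →+* Ω) (hnorm : ∀ x, ‖σΩ x‖ = ‖x‖) (hσj : ∀ c : Kb, σΩ (j c) = j (σ c))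
  (hσ : σ ∈ B.inertiaSubgroupIn ℚ) {S : Finset Kb} (hS : InertiaLevels.GalStable q σ S)
  (σW : ↥(WS B q S) →+* ↥(WS B q S))
  (hσW : ∀ c : ↥(WS B q S), ((σW c : ↥(WS B q S)) : Kb) = σ (c : Kb))

include hσW in
/-- the action on the completed constants extends the action on the integers of the level -/
theorem modConstHom_iotaWS (c : ↥(WS B q S)) :
    modConstHom B hB hqM hne e j σΩ hnorm hσj hσ hS (iotaWS B hB hqM hne e j S c) =
      iotaWS B hB hqM hne e j S (σW c) := by
  apply Subtype.ext
  rw [coe_modConstHom, coe_iotaWS, coe_iotaWS, hσj, hσW]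

include hσW in
/-- **`hcR`** on the constants of the level -/
theorem modSigmaR_iotaWS (c : ↥(WS B q S)) :
    modSigmaR B hB hqM hne e j hj σΩ hnorm hσj hσ hS
        (algebraMap (constK₁ (annulusLevels_modular_final B hB hqM hne e) S j)
          (NodeB (thickK₁ (annulusLevels_modular_final B hB hqM hne e) S j))
          (iotaWS B hB hqM hne e j S c)) =
      algebraMap (constK₁ (annulusLevels_modular_final B hB hqM hne e) S j)
        (NodeB (thickK₁ (annulusLevels_modular_final B hB hqM hne e) S j))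
        (iotaWS B hB hqM hne e j S (σW c)) := by
  rw [modSigmaR_algebraMap, modConstHom_iotaWS B hB hqM hne e j σΩ hnorm hσj hσ hS σW hσW]

include hσW in
/-- the constants in the first boundary ring -/
theorem modSigmaB1_iotaWS (c : ↥(WS B q S)) :
    modSigmaB1 B hB hqM hne e j hj σΩ hnorm hσj hσ hS
        (algebraMap (constK₁ (annulusLevels_modular_final B hB hqM hne e) S j)
          (BAmice (constK₁ (annulusLevels_modular_final B hB hqM hne e) S j))
          (iotaWS B hB hqM hne e j S c)) =
      algebraMap (constK₁ (annulusLevels_modular_final B hB hqM hne e) S j)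
        (BAmice (constK₁ (annulusLevels_modular_final B hB hqM hne e) S j))
        (iotaWS B hB hqM hne e j S (σW c)) := by
  rw [modSigmaB1_algebraMap, modConstHom_iotaWS B hB hqM hne e j σΩ hnorm hσj hσ hS σW hσW]

include hσW in
/-- the constants in the second boundary ring -/
theorem modSigmaB2_iotaWS (c : ↥(WS B q S)) :
    modSigmaB2 B hB hqM hne e j hj σΩ hnorm hσj hσ hS
        (algebraMap (constK₁ (annulusLevels_modular_final B hB hqM hne e) S j)
          (BAmice (constK₁ (annulusLevels_modular_final B hB hqM hne e) S j))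
          (iotaWS B hB hqM hne e j S c)) =
      algebraMap (constK₁ (annulusLevels_modular_final B hB hqM hne e) S j)
        (BAmice (constK₁ (annulusLevels_modular_final B hB hqM hne e) S j))
        (iotaWS B hB hqM hne e j S (σW c)) := by
  rw [modSigmaB2_algebraMap, modConstHom_iotaWS B hB hqM hne e j σΩ hnorm hσj hσ hS σW hσW]

end Fermat.Agent.FF3.NodeBdry
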