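/-
Programme I (S33, p-new half), node T4 (frame + inertia), B-side, part 8 (helper5):
THE SQUARES `hb1`, `hb2` OF `Glue.NodeHom` for the boundary maps of the node part.

* abstract part (`restrictO_ofR`, `bOf_autO`): `h : BLift.Link D V` (helper16: `D.O₀ = O ∩ F₀` is
  the localisation of the finite-level local ring `R` at the vertical prime), `g : F ≃+* F`
  stabilising `F₀`, `O` and `R` (`gR : R → R`, `(gR r : F) = g r`), `ψ : R →+* E` inverting
  `R \ J`, `E` complete, `σE : E →+* E` with `σE (ψ r) = ψ (gR r)` ON THE LEVEL RING ONLY.  Then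

    `σE (h.bOf ψ hψ hE y) = h.bOf ψ hψ hE (autO D O h.mem_iff g hgF hgO y)`   for all `y : D.Oh`

  (helper21's `ExpPackComp.autO` / `lift_autO` + helper16's `Link.ringHom_congr_ofR`);
* the restriction `ballEnd` of a norm non-increasing endomorphism of a normed ring to the unit ball;
* concrete part (`sigmaB1_b1`, `sigmaB2_b2`): for helper16's `BLift.b1`, `BLift.b2` (the boundary
  maps of the node part `nodePart` / `nodePartComp`) and the maps `sigmaB1`, `sigmaB2` of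
  `NodeBdry/NodeAut` attached to `φ₀ : NodeInt π →+* NodeInt π`: if
  `φ₀ (levelExpand r) = levelExpand (gR r)` for all `r` in the level ring (helper29's
  `nodeTwist_nodeExpand`), then

    `sigmaB1 … (b1 … y) = b1 … (autO (D (src e)) (S₀.O (src e)) (hO _) g hgF hgO₁ y)`,
    `sigmaB2 … (b2 … y) = b2 … (autO (D (tgt e)) (S₀.O (tgt e)) (hO _) g hgF hgO₂ y)`.
-/
import Mathlib
import Fermat.Agent.FF3.BLift.Node
import Fermat.Agent.FF3.ExpPackComp.GalAbs
import Fermat.Agent.FF3.NodeBdry.NodeAut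

set_option autoImplicit false
set_option linter.unusedSectionVars false

noncomputable section

namespace Fermat.Agent.FF3.NodeBdry

open Fermat.Agent.FF3.DVCompl Fermat.Agent.FF3.GaussLoc Fermat.Agent.FF3.BLift
  Fermat.Agent.FF3.ExpPackComp

/-! ### the abstract square -/

section Abstract

variable {F : Type*} [Field F] {F₀ : Subfield F} {R : Subring F} {O : ValuationSubring F}
  {D : Datum F₀} {V : VertData R O} (h : Link D V)
  (g : F ≃+* F) (hgF : ∀ y, g y ∈ F₀ ↔ y ∈ F₀) (hgO : ∀ y, g y ∈ O ↔ y ∈ O)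
  (gR : R → R) (hgR : ∀ r : R, ((gR r : R) : F) = g (r : F))

include hgR in
/-- the restriction of `g` to `O ∩ F₀` extends its restriction to the level ring -/
theorem restrictO_ofR (r : R) :
    restrictO D O h.mem_iff g hgF hgO (h.ofR r) = h.ofR (gR r) := by
  apply Subtype.ext
  apply Subtype.ext
  exact (hgR r).symm

variable {E : Type*} [CommRing E] (ψ : R →+* E) (hψ : ∀ s : R, s ∉ V.J → IsUnit (ψ s))
  (hE : IsAdicComplete (Ideal.span {ψ V.ϖ}) E) (σE : E →+* E)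
  (hσψ : ∀ r : R, σE (ψ r) = ψ (gR r))

include hgR hσψ in
/-- the square on `O ∩ F₀` -/
theorem map_phi (x : D.O₀) :
    σE (h.phi ψ hψ x) = h.phi ψ hψ (restrictO D O h.mem_iff g hgF hgO x) := by
  refine h.ringHom_congr_ofR (A := σE.comp (h.phi ψ hψ))
    (B := (h.phi ψ hψ).comp (restrictO D O h.mem_iff g hgF hgO : D.O₀ →+* D.O₀)) (fun r => ?_) x
  show σE (h.phi ψ hψ (h.ofR r)) = h.phi ψ hψ (restrictO D O h.mem_iff g hgF hgO (h.ofR r))
  rw [restrictO_ofR h g hgF hgO gR hgR, h.phi_ofR, h.phi_ofR, hσψ]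

include hgR hσψ in
/-- **The abstract square**: the boundary map `bOf` intertwines `σE` and the automorphism of the
completed valuation ring induced by `g`, as soon as `ψ` does on the level ring. -/
theorem bOf_autO (y : D.Oh) :
    σE (h.bOf ψ hψ hE y) = h.bOf ψ hψ hE (autO D O h.mem_iff g hgF hgO y) :=
  lift_autO D O h.mem_iff g hgF hgO (h.phi ψ hψ) (h.isAdicComplete_phi ψ hψ hE) σE
    (map_phi h g hgF hgO gR hgR ψ hψ σE hσψ) y

end Abstract

/-! ### restriction to the unit ball -/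

section Ball

open Fermat.Agent.FF3.AmiceU

variable {A : Type*} [NormedCommRing A] [IsUltrametricDist A] [NormOneClass A]

/-- the restriction of a norm non-increasing ring endomorphism to the unit ball -/
def ballEnd (τ : A →+* A) (hτ : ∀ x, ‖τ x‖ ≤ ‖x‖) : ↥(ball A) →+* ↥(ball A) :=
  (τ.comp (ball A).subtype).codRestrict (ball A) fun x =>
    mem_ball.2 ((hτ _).trans (mem_ball.1 x.2))

@[simp] theorem coe_ballEnd (τ : A →+* A) (hτ : ∀ x, ‖τ x‖ ≤ ‖x‖) (x : ↥(ball A)) :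
    ((ballEnd τ hτ x : ↥(ball A)) : A) = τ (x : A) := rfl

end Ball

/-! ### the squares at a node of the tower -/

section Concrete

open AlgebraicCurve IsLocalRing Fermat.Agent.Red Fermat.Agent.BR.Centre Fermat.Agent.BR.SS
  Fermat.Agent.BR.Refine Fermat.Agent.BR.S0 Fermat.Agent.BR.S0.AnnulusChartOfLevels
  Fermat.Agent.FF3 Fermat.Agent.FF3.Amice Fermat.Agent.FF3.B4 Fermat.Agent.FF3.ExpandBR
  Fermat.Agent.FF3.NodeRing Fermat.Agent.FF3.AmiceU

attribute [local instance] normedAlgebraSubfield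

universe u

variable {K : Type} {F : Type u} [Field K] [Field F] [Algebra K F]
  {A : ValuationSubring K} [IsAlgClosed (ResidueField A)]
  {ι₀ : Type} {Ft₀ : ι₀ → Type} [∀ v, Field (Ft₀ v)] [∀ v, Algebra (ResidueField A) (Ft₀ v)]
  {ν₀ : Type} {S₀ : SemistableSetup (F := F) A (residue A) ι₀ Ft₀ ν₀} {e : ν₀} {ι : Type*}
  {L : AnnulusLevels A (tube S₀ e) ι} (Xb : BranchData S₀ e L) {i : ι}
  {Ω : Type u} [NormedField Ω] [IsUltrametricDist Ω] [CompleteSpace Ω]
  (j : K →+* Ω) (hj : ∀ c : K, ‖j c‖ ≤ 1 ↔ c ∈ A)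
  (hfull : LevelFullRes L i) (hcol : DenseNearOne j)
  {F₀ : Subfield F} {ϖ₀ : F₀}
  (D : ι₀ → Datum F₀) (hO : ∀ v (x : F₀), x ∈ (D v).O₀ ↔ (x : F) ∈ S₀.O v)
  (hw : ∀ v, (D v).w = ϖ₀) (H : LevelLink L i ϖ₀)
  -- the inputs of `NodeBdry/NodeAut`
  {ϖ : constK₁ L i j} (hϖ : IsDiscreteNorm ϖ)
  (hπ : thickK₁ L i j ≠ 0) (hπ1 : ‖thickK₁ L i j‖ < 1)
  (σ : constK₁ L i j →+* constK₁ L i j) (hσ : ∀ a, ‖σ a‖ = ‖a‖)
  (φ₀ : NodeInt (thickK₁ L i j) →+* NodeInt (thickK₁ L i j))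
  (hc : ∀ (a : constK₁ L i j) (ha : ‖a‖ ≤ 1), φ₀ (cInt a ha) = cInt (σ a) ((hσ a).le.trans ha))
  (hX : ‖toX ((φ₀ (XInt hπ hπ1.le) : NodeInt (thickK₁ L i j)) : NodeB (thickK₁ L i j))‖ = 1)
  (hY : ‖toY ((φ₀ (YInt hπ hπ1.le) : NodeInt (thickK₁ L i j)) : NodeB (thickK₁ L i j))‖ = 1)
  -- the action on the function field
  (g : F ≃+* F) (hgF : ∀ y, g y ∈ F₀ ↔ y ∈ F₀)
  (gR : (L.level i).R → (L.level i).R)
  (hgR : ∀ r : (L.level i).R, ((gR r : (L.level i).R) : F) = g (r : F))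
  (hexp : ∀ r : (L.level i).R,
    φ₀ (levelExpand L i j hj hfull hcol r) = levelExpand L i j hj hfull hcol (gR r))

/-! #### general form: any norm non-increasing `τ` with the square on the level ring -/

section General

variable (hgO₁ : ∀ y, g y ∈ S₀.O (S₀.src e) ↔ y ∈ S₀.O (S₀.src e))
  (hgO₂ : ∀ y, g y ∈ S₀.O (S₀.tgt e) ↔ y ∈ S₀.O (S₀.tgt e))
  (τ : BAmice (constK₁ L i j) →+* BAmice (constK₁ L i j)) (hτ : ∀ x, ‖τ x‖ ≤ ‖x‖)

include hgR hτ in
/-- **The square `hb1` of `Glue.NodeHom`, general form**: a norm non-increasing endomorphism `τ`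
of the boundary ring which commutes with `toX ∘ levelExpand` on the level ring commutes with
helper16's boundary map `b1`. -/
theorem map_b1
    (hτX : ∀ r : (L.level i).R,
      τ (toX ((levelExpand L i j hj hfull hcol r : NodeInt (thickK₁ L i j)) :
        NodeB (thickK₁ L i j))) =
      toX ((levelExpand L i j hj hfull hcol (gR r) : NodeInt (thickK₁ L i j)) :
        NodeB (thickK₁ L i j)))
    (y : (D (S₀.src e)).Oh) :
    τ (b1 Xb j hj hfull hcol D hO hw H y) =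
      b1 Xb j hj hfull hcol D hO hw H
        (autO (D (S₀.src e)) (S₀.O (S₀.src e)) (hO (S₀.src e)) g hgF hgO₁ y) := by
  have key := bOf_autO (link₁ Xb D hO hw H) g hgF hgO₁ gR hgR (psi₁ i j hj hfull hcol)
    (isUnit_psi₁ Xb i j hj hfull hcol) (isAdicComplete_psi₁ Xb i j hj hfull hcol)
    (ballEnd τ hτ) (fun r => Subtype.ext (hτX r)) y
  exact congrArg Subtype.val key

include hgR hτ in
/-- **The square `hb2` of `Glue.NodeHom`, general form.** -/
theorem map_b2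
    (hτY : ∀ r : (L.level i).R,
      τ (toY ((levelExpand L i j hj hfull hcol r : NodeInt (thickK₁ L i j)) :
        NodeB (thickK₁ L i j))) =
      toY ((levelExpand L i j hj hfull hcol (gR r) : NodeInt (thickK₁ L i j)) :
        NodeB (thickK₁ L i j)))
    (y : (D (S₀.tgt e)).Oh) :
    τ (b2 Xb j hj hfull hcol D hO hw H y) =
      b2 Xb j hj hfull hcol D hO hw H
        (autO (D (S₀.tgt e)) (S₀.O (S₀.tgt e)) (hO (S₀.tgt e)) g hgF hgO₂ y) := by
  have key := bOf_autO (link₂ Xb D hO hw H) g hgF hgO₂ gR hgR (psi₂ i j hj hfull hcol)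
    (isUnit_psi₂ Xb i j hj hfull hcol) (isAdicComplete_psi₂ Xb i j hj hfull hcol)
    (ballEnd τ hτ) (fun r => Subtype.ext (hτY r)) y
  exact congrArg Subtype.val key

end General

/-! #### the maps `sigmaB1`, `sigmaB2` of `NodeBdry/NodeAut` -/

include hexp in
/-- the square on the level ring, `X`-side -/
theorem sigmaB1_toX_levelExpand (r : (L.level i).R) :
    sigmaB1 hϖ hπ hπ1 σ hσ φ₀ hc hX
        (toX ((levelExpand L i j hj hfull hcol r : NodeInt (thickK₁ L i j)) :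
          NodeB (thickK₁ L i j))) =
      toX ((levelExpand L i j hj hfull hcol (gR r) : NodeInt (thickK₁ L i j)) :
        NodeB (thickK₁ L i j)) := by
  rw [sigmaB1_toX, sigmaR_coe, hexp]

include hexp in
/-- the square on the level ring, `Y`-side -/
theorem sigmaB2_toY_levelExpand (r : (L.level i).R) :
    sigmaB2 hϖ hπ hπ1 σ hσ φ₀ hc hY
        (toY ((levelExpand L i j hj hfull hcol r : NodeInt (thickK₁ L i j)) :
          NodeB (thickK₁ L i j))) =
      toY ((levelExpand L i j hj hfull hcol (gR r) : NodeInt (thickK₁ L i j)) :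
        NodeB (thickK₁ L i j)) := by
  rw [sigmaB2_toY, sigmaR_coe, hexp]

variable (hgO₁ : ∀ y, g y ∈ S₀.O (S₀.src e) ↔ y ∈ S₀.O (S₀.src e))
  (hgO₂ : ∀ y, g y ∈ S₀.O (S₀.tgt e) ↔ y ∈ S₀.O (S₀.tgt e))

include hgR hexp in
/-- **The square `hb1` of `Glue.NodeHom`** for helper16's boundary map `b1` and `sigmaB1`. -/
theorem sigmaB1_b1 (y : (D (S₀.src e)).Oh) :
    sigmaB1 hϖ hπ hπ1 σ hσ φ₀ hc hX (b1 Xb j hj hfull hcol D hO hw H y) =
      b1 Xb j hj hfull hcol D hO hw H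
        (autO (D (S₀.src e)) (S₀.O (S₀.src e)) (hO (S₀.src e)) g hgF hgO₁ y) :=
  map_b1 Xb j hj hfull hcol D hO hw H g hgF gR hgR hgO₁ _
    (norm_sigmaB1_le hϖ hπ hπ1 σ hσ φ₀ hc hX)
    (sigmaB1_toX_levelExpand j hj hfull hcol hϖ hπ hπ1 σ hσ φ₀ hc hX gR hexp) y

include hgR hexp in
/-- **The square `hb2` of `Glue.NodeHom`** for helper16's boundary map `b2` and `sigmaB2`. -/
theorem sigmaB2_b2 (y : (D (S₀.tgt e)).Oh) :
    sigmaB2 hϖ hπ hπ1 σ hσ φ₀ hc hY (b2 Xb j hj hfull hcol D hO hw H y) =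
      b2 Xb j hj hfull hcol D hO hw H
        (autO (D (S₀.tgt e)) (S₀.O (S₀.tgt e)) (hO (S₀.tgt e)) g hgF hgO₂ y) :=
  map_b2 Xb j hj hfull hcol D hO hw H g hgF gR hgR hgO₂ _
    (norm_sigmaB2_le hϖ hπ hπ1 σ hσ φ₀ hc hY)
    (sigmaB2_toY_levelExpand j hj hfull hcol hϖ hπ hπ1 σ hσ φ₀ hc hY gR hexp) y

end Concrete

end Fermat.Agent.FF3.NodeBdry
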