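/-
Programme I (S33, p-new half), node T4 (frame + inertia), B-side, part 9 (helper5):
THE SQUARES `hb1`, `hb2` OF `Glue.NodeHom` AT THE MODULAR TOWER — plug of `NodeBdry/Square`
(`map_b1`, `map_b2`) at helper29's `modSigmaB1`, `modSigmaB2` (`FF3/InertiaLevels/NodeInstModular`)
and helper16's boundary maps `BLift.b1`, `BLift.b2` at `branchData_modular_final`, for ANY family
of component data `D v : DVCompl.Datum (FS (M * q) q S)` with `O₀ = O_v ∩ F_S` and uniformiser
`unifFS B hB S` (helper24's `compDatum`, helper21's `datum`).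
-/
import Mathlib
import Fermat.Agent.FF3.NodeBdry.Square
import Fermat.Agent.FF3.BLift.Modular
import Fermat.Agent.FF3.InertiaLevels.NodeInstModular

set_option autoImplicit false
set_option linter.unusedSectionVars false
set_option synthInstance.maxHeartbeats 400000
set_option maxHeartbeats 4000000

noncomputable section

namespace Fermat.Agent.FF3.NodeBdry

open AlgebraicCurve ModularCurve IsLocalRing Fermat.Agent.Red Fermat.Agent.X0
  Fermat.Agent.BR Fermat.Agent.BR.Centre Fermat.Agent.BR.S0 Fermat.Agent.BR.SS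
  Fermat.Agent.BR.S0.RedModular
  Fermat.Agent.BR.S0.RedHyp Fermat.Agent.BR.S0.PointDict Fermat.Agent.BR.Inst.AnnulusInstFinal
  Fermat.Agent.BR.Inst.Levels Fermat.Agent.BR.Inst.NodeInst Fermat.Agent.BR.Inst.LocSub
  Fermat.Agent.FF3 Fermat.Agent.FF3.B4 Fermat.Agent.FF3.DVCompl Fermat.Agent.FF3.ExpandBR
  Fermat.Agent.FF3.BLift Fermat.Agent.FF3.InertiaLevels Fermat.Agent.FF3.ExpPackComp
  Fermat.Agent.BR.ValTwo

attribute [local instance] normedAlgebraSubfield

local notation "Kb" => AlgebraicClosure ℚ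

variable {M q : ℕ} [NeZero M] [hq : Fact q.Prime]
variable (B : ValuationSubring Kb) (hB : B.LiesOverPrime q) (hqM : ¬ q ∣ M)
variable [IsAlgClosed (ResidueField B)]
variable (hne : Nonempty (Crossing (chartDataModular B hB hqM)))
variable (e : Crossing (chartDataModular B hB hqM))
variable {σ : Kb ≃ₐ[ℚ] Kb}
variable {Ω : Type} [NormedField Ω] [IsUltrametricDist Ω] [CompleteSpace Ω]
  (j : Kb →+* Ω) (hj : ∀ c : Kb, ‖j c‖ ≤ 1 ↔ c ∈ B)
  (σΩ : Ω →+* Ω) (hnorm : ∀ x, ‖σΩ x‖ = ‖x‖) (hσj : ∀ c : Kb, σΩ (j c) = j (σ c))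
  (hσ : σ ∈ B.inertiaSubgroupIn ℚ) {S : Finset Kb} (hS : InertiaLevels.GalStable q σ S)
  (D : Fin 2 → Datum (FS (M * q) q S))
  (hO : ∀ v (x : FS (M * q) q S),
    x ∈ (D v).O₀ ↔ (x : Fb (M * q)) ∈ (Final.setupFinal B hB hqM hne).O v)
  (hw : ∀ v, (D v).w = unifFS (M := M) B hB S)

/-- `gal (M * q) σ` as a ring automorphism of the function field -/
abbrev galRingAut (N : ℕ) [NeZero N] (σ : Kb ≃ₐ[ℚ] Kb) : Fb N ≃+* Fb N :=
  SemilinearAut.toRingAut (gal N σ)

include hS in
theorem galRingAut_mem_FS_iff (y : Fb (M * q)) :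
    galRingAut (M * q) σ y ∈ FS (M * q) q S ↔ y ∈ FS (M * q) q S :=
  gal_smul_mem_FS_iff (M * q) hS y

include hσ in
theorem galRingAut_mem_setup_O_iff (v : Fin 2) (y : Fb (M * q)) :
    galRingAut (M * q) σ y ∈ (Final.setupFinal B hB hqM hne).O v ↔
      y ∈ (Final.setupFinal B hB hqM hne).O v :=
  smul_mem_setup_O_iff B hB hqM hne hσ v y

/-- **The action of `σ` on the completed valuation ring of the component `v`** (for the component
data `D`): `σOi` for `v = 0`, `σOz` for `v = 1`. -/
def modAutO (v : Fin 2) : (D v).Oh ≃+* (D v).Oh :=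
  autO (D v) ((Final.setupFinal B hB hqM hne).O v) (hO v) (galRingAut (M * q) σ)
    (galRingAut_mem_FS_iff hS) (galRingAut_mem_setup_O_iff B hB hqM hne hσ v)

/-- **The square `hb1` of `Glue.NodeHom` at the crossing `e` of the modular tower.** -/
theorem modSigmaB1_b1 (y : (D ((Final.setupFinal B hB hqM hne).src e)).Oh) :
    modSigmaB1 B hB hqM hne e j hj σΩ hnorm hσj hσ hS
        (b1 (branchData_modular_final B hB hqM hne e) j hj
          (levelFullRes_modular_final B hB hqM hne e S)
          (BLift.denseNearOne_modular B hB hqM hne e j hj) D hO hw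
          (levelLink_modular B hB hqM hne e S) y) =
      b1 (branchData_modular_final B hB hqM hne e) j hj
        (levelFullRes_modular_final B hB hqM hne e S)
        (BLift.denseNearOne_modular B hB hqM hne e j hj) D hO hw
        (levelLink_modular B hB hqM hne e S)
        (modAutO B hB hqM hne hσ hS D hO ((Final.setupFinal B hB hqM hne).src e) y) :=
  map_b1 (branchData_modular_final B hB hqM hne e) j hj
    (levelFullRes_modular_final B hB hqM hne e S)
    (BLift.denseNearOne_modular B hB hqM hne e j hj) D hO hw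
    (levelLink_modular B hB hqM hne e S) (galRingAut (M * q) σ) (galRingAut_mem_FS_iff hS)
    (levelAut B hB hqM hne e hσ hS) (fun _ => rfl)
    (galRingAut_mem_setup_O_iff B hB hqM hne hσ _)
    (modSigmaB1 B hB hqM hne e j hj σΩ hnorm hσj hσ hS)
    (norm_modSigmaB1_le B hB hqM hne e j hj σΩ hnorm hσj hσ hS)
    (modSigmaB1_toX_levelExpand B hB hqM hne e j hj σΩ hnorm hσj hσ hS) y

/-- **The square `hb2` of `Glue.NodeHom` at the crossing `e` of the modular tower.** -/
theorem modSigmaB2_b2 (y : (D ((Final.setupFinal B hB hqM hne).tgt e)).Oh) :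
    modSigmaB2 B hB hqM hne e j hj σΩ hnorm hσj hσ hS
        (b2 (branchData_modular_final B hB hqM hne e) j hj
          (levelFullRes_modular_final B hB hqM hne e S)
          (BLift.denseNearOne_modular B hB hqM hne e j hj) D hO hw
          (levelLink_modular B hB hqM hne e S) y) =
      b2 (branchData_modular_final B hB hqM hne e) j hj
        (levelFullRes_modular_final B hB hqM hne e S)
        (BLift.denseNearOne_modular B hB hqM hne e j hj) D hO hw
        (levelLink_modular B hB hqM hne e S)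
        (modAutO B hB hqM hne hσ hS D hO ((Final.setupFinal B hB hqM hne).tgt e) y) :=
  map_b2 (branchData_modular_final B hB hqM hne e) j hj
    (levelFullRes_modular_final B hB hqM hne e S)
    (BLift.denseNearOne_modular B hB hqM hne e j hj) D hO hw
    (levelLink_modular B hB hqM hne e S) (galRingAut (M * q) σ) (galRingAut_mem_FS_iff hS)
    (levelAut B hB hqM hne e hσ hS) (fun _ => rfl)
    (galRingAut_mem_setup_O_iff B hB hqM hne hσ _)
    (modSigmaB2 B hB hqM hne e j hj σΩ hnorm hσj hσ hS)
    (norm_modSigmaB2_le B hB hqM hne e j hj σΩ hnorm hσj hσ hS)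
    (modSigmaB2_toY_levelExpand B hB hqM hne e j hj σΩ hnorm hσj hσ hS) y

end Fermat.Agent.FF3.NodeBdry
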